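import Mathlib.RingTheory.Artinian.Module
import Mathlib.RingTheory.FiniteLength
import Mathlib.RingTheory.LocalRing.ResidueField.Basic
import Mathlib.RingTheory.Ideal.Quotient.Operations
import Mathlib.LinearAlgebra.Quotient.Basic
import Mathlib.Algebra.Module.Torsion.Basic

set_option autoImplicit false

open IsLocalRing

namespace Fermat.Agent.S57

lemma isArtinian_of_semilinear_surjective {A B : Type} [CommRing A] [CommRing B] {σ : A →+* B}
    {Q' Q : Type} [AddCommGroup Q'] [AddCommGroup Q] [Module A Q'] [Module B Q]
    (f : Q' →ₛₗ[σ] Q) (hf : Function.Surjective f) [IsArtinian A Q'] : IsArtinian B Q := by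
  have hmono : StrictMono (fun P : Submodule B Q => Submodule.comap f P) := by
    apply Monotone.strictMono_of_injective
    · intro P P' h
      exact Submodule.comap_mono h
    · intro P P' h
      ext x
      obtain ⟨y, rfl⟩ := hf x
      have := SetLike.ext_iff.mp h y
      simpa using this
  exact hmono.wellFoundedLT

lemma isArtinian_quot_maximalIdeal_smul_top {S : Type} [CommRing S] [IsLocalRing S]
    (F : Type) [AddCommGroup F] [Module S F] [Module.Finite S F] :
    IsArtinian S (F ⧸ (maximalIdeal S • (⊤ : Submodule S F))) := by
  let K := S ⧸ maximalIdeal S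
  let _ : Field K := Ideal.Quotient.field (maximalIdeal S)
  have : IsArtinian K (F ⧸ (maximalIdeal S • (⊤ : Submodule S F))) := inferInstance
  exact isArtinian_of_surjective_algebraMap (R := K) (S := S) Ideal.Quotient.mk_surjective

end Fermat.Agent.S57
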