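import Mathlib.RingTheory.Regular.ProjectiveDimension
import Mathlib.RingTheory.FiniteLength
import Mathlib.RingTheory.SimpleModule.Basic

set_option autoImplicit false

open CategoryTheory IsLocalRing RingTheory.Sequence

namespace Fermat.Agent.S57

variable {S : Type} [CommRing S] [IsLocalRing S]

lemma hasProjDimLT_of_isFiniteLength (n : ℕ)
    (hk : HasProjectiveDimensionLT (ModuleCat.of S (S ⧸ maximalIdeal S)) n)
    (Q : Type) [AddCommGroup Q] [Module S Q] (h : IsFiniteLength S Q) :
    HasProjectiveDimensionLT (ModuleCat.of S Q) n := by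
  induction h with
  | of_subsingleton =>
    rename_i M _ _ _
    have hz : Limits.IsZero (ModuleCat.of S M) := ModuleCat.isZero_of_subsingleton _
    have := hz.hasProjectiveDimensionLT_zero
    exact hasProjectiveDimensionLT_of_ge _ 0 n (Nat.zero_le n)
  | of_simple_quotient hN ih =>
    rename_i M _ _ P hs
    obtain ⟨I, hI, ⟨e⟩⟩ := isSimpleModule_iff_quot_maximal.mp hs
    have hIm : I = maximalIdeal S := IsLocalRing.eq_maximalIdeal hI
    subst hIm
    have h3 : HasProjectiveDimensionLT (ModuleCat.of S (M ⧸ P)) n :=
      hasProjectiveDimensionLT_of_iso (e.symm.toModuleIso) n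
    have hsurj : Function.Surjective P.mkQ := P.mkQ_surjective
    have hS := LinearMap.shortExact_shortComplexKer hsurj
    have e1 : LinearMap.ker P.mkQ ≃ₗ[S] P := LinearEquiv.ofEq _ _ (Submodule.ker_mkQ P)
    have h1 : HasProjectiveDimensionLT (ModuleCat.of S (LinearMap.ker P.mkQ)) n :=
      hasProjectiveDimensionLT_of_iso (e1.symm.toModuleIso) n
    exact hS.hasProjectiveDimensionLT_X₂ n h1 h3

theorem free_of_regular [IsNoetherianRing S]
    (xs : List S) (hxs : IsRegular S xs) (hmax : Ideal.ofList xs = maximalIdeal S)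
    {N : Type} [AddCommGroup N] [Module S N] [Module.Finite S N]
    (ys : List S) (hys : IsWeaklyRegular N ys) (hmem : ∀ y ∈ ys, y ∈ maximalIdeal S)
    (hlen : ys.length = xs.length)
    (hfl : IsFiniteLength S (N ⧸ Ideal.ofList ys • (⊤ : Submodule S N))) :
    Module.Free S N := by
  rcases subsingleton_or_nontrivial N with hN | hN
  · exact Module.Free.of_subsingleton S N
  -- projective dimension of the residue field
  have hk : projectiveDimension (ModuleCat.of S (S ⧸ maximalIdeal S)) = xs.length := by
    have h1 := ModuleCat.projectiveDimension_quotient_eq_length.{0} xs hxs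
    rw [← h1, hmax]
    exact ModuleCat.projectiveDimension_eq_of_linearEquiv
      (M := ModuleCat.of S (S ⧸ maximalIdeal S))
      (N := ModuleCat.of S (Shrink.{0} (S ⧸ maximalIdeal S)))
      (Shrink.linearEquiv S (S ⧸ maximalIdeal S)).symm
  have hk' : HasProjectiveDimensionLT (ModuleCat.of S (S ⧸ maximalIdeal S)) (xs.length + 1) := by
    have : projectiveDimension (ModuleCat.of S (S ⧸ maximalIdeal S)) ≤ (xs.length : ℕ) := by
      rw [hk]
    exact (projectiveDimension_le_iff _ _).mp this
  have hQ := hasProjDimLT_of_isFiniteLength (xs.length + 1) hk' _ hfl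
  have hQ' : projectiveDimension (ModuleCat.of S (N ⧸ Ideal.ofList ys • (⊤ : Submodule S N)))
      ≤ (xs.length : ℕ) := (projectiveDimension_le_iff _ _).mpr hQ
  have hadd := ModuleCat.projectiveDimension_quotient_eq_add_length_of_isWeaklyRegular
    (ModuleCat.of S N) ys hys hmem
  rw [hadd, hlen] at hQ'
  have h0 : projectiveDimension (ModuleCat.of S N) ≤ ((0 : ℕ) : WithBot ℕ∞) := by
    have : projectiveDimension (ModuleCat.of S N) + (xs.length : ℕ) ≤
        ((0 : ℕ) : WithBot ℕ∞) + (xs.length : ℕ) := by
      simpa using hQ'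
    exact ENat.WithBot.add_le_add_natCast_right_iff.mp this
  have h1 : HasProjectiveDimensionLE (ModuleCat.of S N) 0 := (projectiveDimension_le_iff _ _).mp h0
  have h2 : Projective (ModuleCat.of S N) := by
    rw [projective_iff_hasProjectiveDimensionLT_one]
    exact h1
  have h3 : Module.Projective S N := (IsProjective.iff_projective N).mpr h2
  exact Module.free_of_flat_of_isLocalRing

end Fermat.Agent.S57
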