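import Mathlib.RingTheory.Regular.RegularSequence
import Mathlib.RingTheory.MvPowerSeries.Equiv
import Mathlib.RingTheory.MvPowerSeries.Inverse
import Mathlib.RingTheory.PowerSeries.Inverse

set_option autoImplicit false

open IsLocalRing RingTheory.Sequence

namespace Fermat.Agent.S57

open scoped Pointwise

section PowerSeriesStep

variable {T : Type} [CommRing T]

/-- constant coefficient as a semilinear map -/
noncomputable def ccSemilinear : PowerSeries T →ₛₗ[PowerSeries.constantCoeff (R := T)] T where
  toFun := PowerSeries.constantCoeff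
  map_add' := map_add _
  map_smul' a b := by simp

lemma ccSemilinear_apply (f : PowerSeries T) : ccSemilinear f = PowerSeries.constantCoeff f := rfl

lemma X_smul_top_le_ker :
    (PowerSeries.X : PowerSeries T) • (⊤ : Submodule (PowerSeries T) (PowerSeries T)) ≤
      LinearMap.ker (ccSemilinear (T := T)) := by
  intro f hf
  obtain ⟨g, -, rfl⟩ := (Submodule.mem_smul_pointwise_iff_exists _ _ _).mp hf
  simp [ccSemilinear_apply]

noncomputable def quotXMap :
    QuotSMulTop (PowerSeries.X : PowerSeries T) (PowerSeries T)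
      →ₛₗ[PowerSeries.constantCoeff (R := T)] T :=
  Submodule.liftQ _ (ccSemilinear (T := T)) X_smul_top_le_ker

lemma quotXMap_mk (f : PowerSeries T) :
    quotXMap (Submodule.Quotient.mk f :
      QuotSMulTop (PowerSeries.X : PowerSeries T) (PowerSeries T)) =
      PowerSeries.constantCoeff f := rfl

lemma quotXMap_bijective : Function.Bijective (quotXMap (T := T)) := by
  constructor
  · rw [← LinearMap.ker_eq_bot, eq_bot_iff]
    intro x hx
    obtain ⟨f, rfl⟩ := Submodule.Quotient.mk_surjective _ x
    have h0 : PowerSeries.constantCoeff f = 0 := by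
      rw [LinearMap.mem_ker, quotXMap_mk] at hx
      exact hx
    obtain ⟨g, rfl⟩ := PowerSeries.X_dvd_iff.mpr h0
    rw [Submodule.mem_bot, Submodule.Quotient.mk_eq_zero]
    exact (Submodule.mem_smul_pointwise_iff_exists _ _ _).mpr ⟨g, trivial, rfl⟩
  · intro t
    refine ⟨Submodule.Quotient.mk (PowerSeries.C t), ?_⟩
    rw [quotXMap_mk]
    simp

noncomputable def quotXEquiv : QuotSMulTop (PowerSeries.X : PowerSeries T) (PowerSeries T) ≃+ T :=
  AddEquiv.ofBijective (quotXMap (T := T)).toAddMonoidHom quotXMap_bijective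

lemma quotXEquiv_smul (a : PowerSeries T)
    (x : QuotSMulTop (PowerSeries.X : PowerSeries T) (PowerSeries T)) :
    quotXEquiv (a • x) = PowerSeries.constantCoeff a • quotXEquiv x := by
  change quotXMap (a • x) = _ • quotXMap x
  rw [map_smulₛₗ]

lemma isWeaklyRegular_X_cons (ls : List T) (h : IsWeaklyRegular T ls) :
    IsWeaklyRegular (PowerSeries T) (PowerSeries.X :: ls.map (PowerSeries.C (R := T))) := by
  rw [isWeaklyRegular_cons_iff]
  refine ⟨?_, ?_⟩
  · intro f g hfg
    exact PowerSeries.X_mul_cancel hfg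
  · refine (AddEquiv.isWeaklyRegular_congr (e := quotXEquiv (T := T)) ?_).mpr h
    rw [List.forall₂_map_left_iff]
    apply List.forall₂_same.mpr
    intro t _ x
    rw [quotXEquiv_smul]
    simp

lemma ofList_X_cons_eq_maximalIdeal [IsLocalRing T] (ls : List T)
    (h : Ideal.ofList ls = maximalIdeal T) :
    Ideal.ofList (PowerSeries.X :: ls.map (PowerSeries.C (R := T))) =
      maximalIdeal (PowerSeries T) := by
  apply le_antisymm
  · rw [Ideal.ofList, Ideal.span_le]
    intro f hf
    simp only [List.mem_cons, List.mem_map, Set.mem_ofPred_eq] at hf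
    rw [SetLike.mem_coe, mem_maximalIdeal, mem_nonunits_iff, PowerSeries.isUnit_iff_constantCoeff]
    rcases hf with rfl | ⟨t, ht, rfl⟩
    · simp
    · simp only [PowerSeries.constantCoeff_C]
      have : t ∈ maximalIdeal T := by
        rw [← h]; exact Ideal.subset_span ht
      exact this
  · intro f hf
    rw [mem_maximalIdeal, mem_nonunits_iff, PowerSeries.isUnit_iff_constantCoeff] at hf
    have hc : PowerSeries.constantCoeff f ∈ Ideal.ofList ls := by
      rw [h]; exact hf
    rw [f.eq_X_mul_shift_add_const]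
    refine Ideal.add_mem _ (Ideal.mul_mem_right _ _ (Ideal.subset_span (by simp))) ?_
    have hle : Ideal.map (PowerSeries.C (R := T)) (Ideal.ofList ls) ≤
        Ideal.ofList (PowerSeries.X :: ls.map (PowerSeries.C (R := T))) := by
      rw [Ideal.ofList, Ideal.map_span, Ideal.span_le]
      rintro _ ⟨t, ht, rfl⟩
      exact Ideal.subset_span (by simp only [List.mem_cons, List.mem_map, Set.mem_ofPred_eq]; exact Or.inr ⟨t, ht, rfl⟩)
    exact hle (Ideal.mem_map_of_mem _ hc)

end PowerSeriesStep

section Transfer

variable {T T' : Type} [CommRing T] [CommRing T']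

lemma isWeaklyRegular_map_ringEquiv (e : T ≃+* T') (ls : List T) (h : IsWeaklyRegular T ls) :
    IsWeaklyRegular T' (ls.map e) := by
  refine (AddEquiv.isWeaklyRegular_congr (e := e.toAddEquiv) ?_).mp h
  rw [List.forall₂_map_right_iff]
  apply List.forall₂_same.mpr
  intro t _ x
  simp

lemma ofList_map_ringEquiv_eq_maximalIdeal [IsLocalRing T] [IsLocalRing T'] (e : T ≃+* T')
    (ls : List T) (h : Ideal.ofList ls = maximalIdeal T) :
    Ideal.ofList (ls.map e) = maximalIdeal T' := by
  have h1 : Ideal.ofList (ls.map e) = Ideal.map (e : T →+* T') (Ideal.ofList ls) := by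
    rw [Ideal.ofList, Ideal.ofList, Ideal.map_span]
    congr 1
    ext x
    simp
  rw [h1, h]
  ext x
  rw [Ideal.mem_map_iff_of_surjective (e : T →+* T') e.surjective]
  constructor
  · rintro ⟨y, hy, rfl⟩
    rw [mem_maximalIdeal, mem_nonunits_iff] at hy ⊢
    intro hu
    apply hy
    have := hu.map e.symm
    simpa using this
  · intro hx
    refine ⟨e.symm x, ?_, by simp⟩
    rw [mem_maximalIdeal, mem_nonunits_iff] at hx ⊢
    intro hu
    apply hx
    have := hu.map e
    simpa using this

end Transfer

section MvStep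

variable {R₀ : Type} [CommRing R₀] [IsLocalRing R₀]

/-- the candidate regular sequence on `MvPowerSeries (Fin n) R₀` -/
noncomputable def mvList (rs : List R₀) (n : ℕ) : List (MvPowerSeries (Fin n) R₀) :=
  List.ofFn (fun i : Fin n => (MvPowerSeries.X i : MvPowerSeries (Fin n) R₀)) ++
    rs.map (MvPowerSeries.C (σ := Fin n) (R := R₀))

omit [IsLocalRing R₀] in
lemma mvList_succ (rs : List R₀) (n : ℕ) :
    mvList rs (n + 1) =
      ((PowerSeries.X : PowerSeries (MvPowerSeries (Fin n) R₀)) ::
        (mvList rs n).map (PowerSeries.C (R := MvPowerSeries (Fin n) R₀))).map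
        ((MvPowerSeries.finSuccEquiv R₀ n).symm : _ ≃+* _) := by
  have hX0 : (MvPowerSeries.finSuccEquiv R₀ n).symm PowerSeries.X = MvPowerSeries.X 0 := by
    rw [AlgEquiv.symm_apply_eq]; simp
  have hXs : ∀ j : Fin n, (MvPowerSeries.finSuccEquiv R₀ n).symm
      (PowerSeries.C (MvPowerSeries.X j)) = MvPowerSeries.X j.succ := by
    intro j
    rw [AlgEquiv.symm_apply_eq]; simp
  have hC : ∀ a : R₀, (MvPowerSeries.finSuccEquiv R₀ n).symm
      (PowerSeries.C (MvPowerSeries.C a)) = MvPowerSeries.C a := by
    intro a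
    rw [AlgEquiv.symm_apply_eq]; simp
  simp only [mvList, List.map_cons, List.map_append, List.map_map, List.map_ofFn, List.ofFn_succ,
    List.cons_append]
  congr 1
  · exact hX0.symm
  · congr 1
    · congr 1
      funext j
      exact (hXs j).symm
    · apply List.map_congr_left
      intro a _
      exact (hC a).symm

theorem mvList_spec (rs : List R₀) (h1 : IsWeaklyRegular R₀ rs)
    (h2 : Ideal.ofList rs = maximalIdeal R₀) (n : ℕ) :
    IsWeaklyRegular (MvPowerSeries (Fin n) R₀) (mvList rs n) ∧
      Ideal.ofList (mvList rs n) = maximalIdeal (MvPowerSeries (Fin n) R₀) := by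
  induction n with
  | zero =>
    have hl : mvList rs 0 = rs.map ((MvPowerSeries.isEmptyEquiv (Fin 0) R₀).symm : _ ≃+* _) := by
      simp only [mvList, List.ofFn_zero, List.nil_append]
      apply List.map_congr_left
      intro a _
      rfl
    rw [hl]
    exact ⟨isWeaklyRegular_map_ringEquiv _ _ h1, ofList_map_ringEquiv_eq_maximalIdeal _ _ h2⟩
  | succ n ih =>
    rw [mvList_succ]
    exact ⟨isWeaklyRegular_map_ringEquiv _ _ (isWeaklyRegular_X_cons _ ih.1),
      ofList_map_ringEquiv_eq_maximalIdeal _ _ (ofList_X_cons_eq_maximalIdeal _ ih.2)⟩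

end MvStep

end Fermat.Agent.S57
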