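import Fermat.Statements.S57
import Fermat.Agent.S57.ProjDim
import Fermat.Agent.S57.RegSeq
import Fermat.Agent.S57.Artinian

set_option autoImplicit false
open Algebra Algebra.PatchingLevel

namespace Fermat.Agent.S57

open IsLocalRing RingTheory.Sequence

section

variable {𝒪 : Type} [CommRing 𝒪]
    {r : ℕ} {R : Type} [CommRing R] [Algebra 𝒪 R]
    {M : Type} [AddCommGroup M] [Module R M]
    (L : Algebra.PatchingLevel 𝒪 r R M ⊥)

/-- the `φ`-semilinear coordinate map -/
noncomputable def coordMap :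
    (Fin L.d → MvPowerSeries (Fin r) 𝒪) →ₛₗ[(L.φ : MvPowerSeries (Fin r) 𝒪 →+* MvPowerSeries (Fin r) 𝒪)] L.N where
  toFun c := ∑ i, L.φ (c i) • L.b i
  map_add' c c' := by
    simp only [Pi.add_apply, map_add, add_smul, Finset.sum_add_distrib]
  map_smul' a c := by
    simp only [Pi.smul_apply, smul_eq_mul, map_mul, Finset.smul_sum, mul_smul]
    rfl

lemma coordMap_apply (c : Fin L.d → MvPowerSeries (Fin r) 𝒪) :
    coordMap L c = ∑ i, L.φ (c i) • L.b i := rfl

lemma coordMap_bijective : Function.Bijective (coordMap L) := by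
  constructor
  · rw [← LinearMap.ker_eq_bot, eq_bot_iff]
    intro c hc
    rw [LinearMap.mem_ker, coordMap_apply] at hc
    have := (L.b_rel c).mp hc
    rw [Submodule.mem_bot]
    funext i
    exact this i
  · intro x
    obtain ⟨c, hc⟩ := L.b_span x
    exact ⟨c, hc.symm⟩

lemma finite_N : Module.Finite (MvPowerSeries (Fin r) 𝒪) L.N := by
  refine Module.Finite.of_surjective
    (Fintype.linearCombination (MvPowerSeries (Fin r) 𝒪) L.b) ?_
  intro x
  obtain ⟨c, hc⟩ := L.b_span x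
  refine ⟨fun i => L.φ (c i), ?_⟩
  rw [hc, Fintype.linearCombination_apply]

lemma isWeaklyRegular_N (xs : List (MvPowerSeries (Fin r) 𝒪))
    (h : IsWeaklyRegular (MvPowerSeries (Fin r) 𝒪) xs) :
    IsWeaklyRegular L.N (xs.map L.φ) := by
  have h1 : IsWeaklyRegular (Fin L.d → MvPowerSeries (Fin r) 𝒪) xs := by
    have := h.isWeaklyRegular_lTensor (M₂ := Fin L.d → MvPowerSeries (Fin r) 𝒪)
    exact (LinearEquiv.isWeaklyRegular_congr (TensorProduct.rid _ _) xs).mp this
  let e : (Fin L.d → MvPowerSeries (Fin r) 𝒪) ≃+ L.N :=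
    AddEquiv.ofBijective (coordMap L).toAddMonoidHom (coordMap_bijective L)
  refine (AddEquiv.isWeaklyRegular_congr (e := e) ?_).mp h1
  rw [List.forall₂_map_right_iff]
  apply List.forall₂_same.mpr
  intro a _ c
  change coordMap L (a • c) = L.φ a • coordMap L c
  rw [map_smulₛₗ]
  rfl

/-- the quotient of `N` by the image sequence has finite length -/
lemma isFiniteLength_quot [IsLocalRing 𝒪] [IsNoetherianRing 𝒪]
    (xs : List (MvPowerSeries (Fin r) 𝒪))
    (hxs : Ideal.ofList xs = maximalIdeal (MvPowerSeries (Fin r) 𝒪)) :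
    IsFiniteLength (MvPowerSeries (Fin r) 𝒪)
      (L.N ⧸ Ideal.ofList (xs.map L.φ) • (⊤ : Submodule (MvPowerSeries (Fin r) 𝒪) L.N)) := by
  have hfin := finite_N L
  rw [isFiniteLength_iff_isNoetherian_isArtinian]
  refine ⟨inferInstance, ?_⟩
  set J := Ideal.ofList (xs.map L.φ) • (⊤ : Submodule (MvPowerSeries (Fin r) 𝒪) L.N) with hJ
  let f : (Fin L.d → MvPowerSeries (Fin r) 𝒪) →ₛₗ[(L.φ : MvPowerSeries (Fin r) 𝒪 →+* MvPowerSeries (Fin r) 𝒪)] (L.N ⧸ J) :=
    J.mkQ.comp (coordMap L)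
  have hker : maximalIdeal (MvPowerSeries (Fin r) 𝒪) •
      (⊤ : Submodule (MvPowerSeries (Fin r) 𝒪) (Fin L.d → MvPowerSeries (Fin r) 𝒪)) ≤
      LinearMap.ker f := by
    rw [Submodule.smul_le]
    intro a ha c _
    rw [LinearMap.mem_ker]
    change J.mkQ (coordMap L (a • c)) = 0
    rw [map_smulₛₗ, Submodule.mkQ_apply, Submodule.Quotient.mk_eq_zero]
    refine Submodule.smul_mem_smul ?_ trivial
    rw [← hxs] at ha
    have : Ideal.ofList (xs.map L.φ) = Ideal.map (L.φ : MvPowerSeries (Fin r) 𝒪 →+* MvPowerSeries (Fin r) 𝒪) (Ideal.ofList xs) := by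
      rw [Ideal.ofList, Ideal.ofList, Ideal.map_span]
      congr 1
      ext x
      simp
    rw [this]
    exact Ideal.mem_map_of_mem _ ha
  have hsurj : Function.Surjective (Submodule.liftQ _ f hker) := by
    intro q
    obtain ⟨n, rfl⟩ := J.mkQ_surjective q
    obtain ⟨c, rfl⟩ := (coordMap_bijective L).2 n
    exact ⟨Submodule.Quotient.mk c, rfl⟩
  have hart := isArtinian_quot_maximalIdeal_smul_top (S := MvPowerSeries (Fin r) 𝒪)
    (Fin L.d → MvPowerSeries (Fin r) 𝒪)
  exact isArtinian_of_semilinear_surjective _ hsurj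

end

section

variable {𝒪 : Type} [CommRing 𝒪] [IsDomain 𝒪] [IsDiscreteValuationRing 𝒪]
    {r : ℕ} {R : Type} [CommRing R] [Algebra 𝒪 R]
    {M : Type} [AddCommGroup M] [Module R M] [Nontrivial M]
    (L : Algebra.PatchingLevel 𝒪 r R M ⊥)

lemma phi_X_mem_maximalIdeal (i : Fin r) :
    L.φ (MvPowerSeries.X i) ∈ maximalIdeal (MvPowerSeries (Fin r) 𝒪) := by
  rw [mem_maximalIdeal, mem_nonunits_iff]
  intro hu
  have htop : Ideal.span (Set.range fun i : Fin r => L.φ (MvPowerSeries.X i)) = ⊤ :=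
    Ideal.eq_top_of_isUnit_mem _ (Ideal.subset_span ⟨i, rfl⟩) hu
  have h0 : ∀ m : M, m = 0 := by
    intro m
    obtain ⟨x, rfl⟩ := L.π_surjective m
    rw [L.ker_π, htop, Submodule.top_smul]
    trivial
  obtain ⟨m, hm⟩ := exists_ne (0 : M)
  exact hm (h0 m)

theorem free_N : Module.Free (MvPowerSeries (Fin r) 𝒪) L.N := by
  obtain ⟨ϖ, hϖ⟩ := IsDiscreteValuationRing.exists_irreducible 𝒪
  have h1 : IsWeaklyRegular 𝒪 ([ϖ] : List 𝒪) := by
    rw [isWeaklyRegular_singleton_iff]
    intro a b hab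
    exact mul_left_cancel₀ hϖ.ne_zero hab
  have h2 : Ideal.ofList ([ϖ] : List 𝒪) = maximalIdeal 𝒪 := by
    rw [Ideal.ofList_singleton, hϖ.maximalIdeal_eq]
  obtain ⟨hreg, hmax⟩ := mvList_spec [ϖ] h1 h2 r
  have hmem : ∀ x ∈ mvList [ϖ] r, x ∈ maximalIdeal (MvPowerSeries (Fin r) 𝒪) := by
    intro x hx
    rw [← hmax]
    exact Ideal.subset_span hx
  have hxs : IsRegular (MvPowerSeries (Fin r) 𝒪) (mvList [ϖ] r) :=
    IsRegular.of_isWeaklyRegular_of_mem_maximalIdeal _ hmem hreg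
  have hfin := finite_N L
  have hys := isWeaklyRegular_N L _ hreg
  have hmem' : ∀ y ∈ (mvList [ϖ] r).map L.φ, y ∈ maximalIdeal (MvPowerSeries (Fin r) 𝒪) := by
    intro y hy
    rw [List.mem_map] at hy
    obtain ⟨x, hx, rfl⟩ := hy
    have hx' := hx
    simp only [mvList, List.mem_append, List.mem_ofFn, List.map_cons, List.map_nil,
      List.mem_singleton] at hx'
    rcases hx' with ⟨i, rfl⟩ | rfl
    · exact phi_X_mem_maximalIdeal L i
    · have : L.φ (MvPowerSeries.C ϖ) = MvPowerSeries.C ϖ := by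
        have := L.φ.commutes ϖ
        rwa [MvPowerSeries.algebraMap_apply, Algebra.algebraMap_self_apply] at this
      rw [this]
      exact hmem _ hx
  have hfl := isFiniteLength_quot L _ hmax
  exact free_of_regular _ hxs hmax _ hys hmem' (by simp) hfl

end

end Fermat.Agent.S57
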