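import Mathlib

set_option autoImplicit false

universe u

namespace Fermat.Agent.S57

open IsLocalRing RingTheory.Sequence CategoryTheory Abelian Pointwise

section

variable {A : Type u} [CommRing A] [IsLocalRing A] [IsNoetherianRing A]
variable {N : Type u} [AddCommGroup N] [Module A N] [Module.Finite A N]

omit [IsNoetherianRing A] in
theorem maximalIdeal_smul_top_lt_top [Nontrivial N] :
    maximalIdeal A • (⊤ : Submodule A N) < ⊤ := by
  rw [lt_top_iff_ne_top]
  exact (Submodule.top_ne_ideal_smul_of_le_jacobson_annihilator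
    (maximalIdeal_le_jacobson _)).symm

/-- Rees step: if `N` has a regular sequence of length `n + 1` in the maximal ideal and
`x` in the maximal ideal is `N`-regular, then `N ⧸ x N` has a regular sequence of length `n`
in the maximal ideal. -/
theorem exists_isRegular_quotSMulTop {x : A} (hx : x ∈ maximalIdeal A)
    (hreg : IsSMulRegular N x) (rs : List A) (hrs : IsRegular N rs)
    (hmem : ∀ r ∈ rs, r ∈ maximalIdeal A) (n : ℕ) (hn : rs.length = n + 1) :
    ∃ rs2 : List A, rs2.length = n ∧ (∀ r ∈ rs2, r ∈ maximalIdeal A) ∧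
      IsRegular (QuotSMulTop x N) rs2 := by
  have : Nontrivial N := hrs.nontrivial
  have : Nontrivial (QuotSMulTop x N) := nontrivial_quotSMulTop_of_mem_maximalIdeal N hx
  have h1 := ModuleCat.exists_isRegular_tfae (maximalIdeal A) (n + 1) (ModuleCat.of A N)
    maximalIdeal_smul_top_lt_top
  have key1 : (∃ rs : List A, rs.length = n + 1 ∧ (∀ r ∈ rs, r ∈ maximalIdeal A) ∧
      IsRegular (ModuleCat.of A N) rs) ↔
      (∀ i < n + 1, Subsingleton (Ext (ModuleCat.of A (Shrink.{u} (A ⧸ maximalIdeal A)))
      (ModuleCat.of A N) i)) := h1.out 3 1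
  have h42 := key1.mp ⟨rs, hn, hmem, hrs⟩
  have h2 := ModuleCat.exists_isRegular_tfae (maximalIdeal A) n
    (ModuleCat.of A (QuotSMulTop x N)) maximalIdeal_smul_top_lt_top
  have key2 : (∀ i < n, Subsingleton (Ext (ModuleCat.of A (Shrink.{u} (A ⧸ maximalIdeal A)))
      (ModuleCat.of A (QuotSMulTop x N)) i)) ↔
      (∃ rs : List A, rs.length = n ∧ (∀ r ∈ rs, r ∈ maximalIdeal A) ∧
      IsRegular (ModuleCat.of A (QuotSMulTop x N)) rs) := h2.out 1 3
  refine key2.mp ?_
  intro i hi
  have zero1 := AddCommGrpCat.isZero_of_iff_subsingleton.mpr (h42 i (by omega))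
  have zero2 := AddCommGrpCat.isZero_of_iff_subsingleton.mpr (h42 (i + 1) (by omega))
  exact AddCommGrpCat.subsingleton_of_isZero <| ShortComplex.Exact.isZero_of_both_zeros
    ((Ext.covariant_sequence_exact₃' _ (IsSMulRegular.smulShortComplex_shortExact
      (M := ModuleCat.of A N) hreg)) i (i + 1) rfl)
    (zero1.eq_zero_of_src _) (zero2.eq_zero_of_tgt _)

end

end Fermat.Agent.S57
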